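import Mathlib
import Fermat.Prelude.Def_CuspForm_HeckeAlgebra
import Fermat.Prelude.Def_FLTPrelim_Modularity

/-!
# SMO: change of level

* `levelIncl (h : M0 ∣ M) : S_k(Γ₀(M0)) →ₗ[ℂ] S_k(Γ₀(M))` (the same function);
* it commutes with `T_ℓ` (`ℓ ∤ M`);
* `heckeULower`: for `p ∣ N0`, `N ∣ p * N0` the operator `U_p` maps `S_k(Γ₀(N))` to `S_k(Γ₀(N0))`.
-/

set_option autoImplicit false

namespace Fermat.Agent.SMO

open CongruenceSubgroup ModularFormClass UpperHalfPlane Matrix.SpecialLinearGroup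
open scoped MatrixGroups ModularForm

theorem Gamma0_le_of_dvd {M0 M : ℕ} (h : M0 ∣ M) : Gamma0 M ≤ Gamma0 M0 := by
  intro g hg
  rw [Gamma0_mem] at hg ⊢
  rw [ZMod.intCast_zmod_eq_zero_iff_dvd] at hg ⊢
  exact (Int.natCast_dvd_natCast.mpr h).trans hg

theorem Gamma0_map_le_of_dvd {M0 M : ℕ} (h : M0 ∣ M) :
    (Gamma0 M : Subgroup (GL (Fin 2) ℝ)) ≤ (Gamma0 M0 : Subgroup (GL (Fin 2) ℝ)) :=
  Subgroup.map_mono (Gamma0_le_of_dvd h)

/-- A cusp form of level `M0` is a cusp form of level `M` for `M0 ∣ M`. -/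
noncomputable def levelIncl {M0 M : ℕ} (h : M0 ∣ M) (k : ℤ) :
    CuspForm (Gamma0 M0) k →ₗ[ℂ] CuspForm (Gamma0 M) k where
  toFun f :=
    { toFun := ⇑f
      slash_action_eq' := fun γ hγ =>
        SlashInvariantFormClass.slash_action_eq f γ (Gamma0_map_le_of_dvd h hγ)
      holo' := CuspFormClass.holo f
      zero_at_cusps' := fun hc => CuspFormClass.zero_at_cusps f (hc.mono (Gamma0_map_le_of_dvd h)) }
  map_add' _ _ := DFunLike.coe_injective rfl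
  map_smul' _ _ := DFunLike.coe_injective rfl

@[simp] theorem coe_levelIncl {M0 M : ℕ} (h : M0 ∣ M) (k : ℤ) (f : CuspForm (Gamma0 M0) k) :
    ⇑(levelIncl h k f) = ⇑f := rfl

theorem levelIncl_injective {M0 M : ℕ} (h : M0 ∣ M) (k : ℤ) :
    Function.Injective (levelIncl h k) := by
  intro f g hfg
  exact DFunLike.coe_injective (congrArg (fun F : CuspForm (Gamma0 M) k => ⇑F) hfg)

theorem qCoeff_levelIncl {M0 M : ℕ} (h : M0 ∣ M) (k : ℤ) (f : CuspForm (Gamma0 M0) k) (n : ℕ) :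
    qCoeff (levelIncl h k f) n = qCoeff f n := rfl

theorem heckeTLin_levelIncl {M0 M : ℕ} (h : M0 ∣ M) (k : ℤ) {ℓ : ℕ} (hℓ : ℓ.Prime)
    (hℓM : ¬ ℓ ∣ M) (hℓM0 : ¬ ℓ ∣ M0) (f : CuspForm (Gamma0 M0) k) :
    CuspForm.heckeTLin k hℓ hℓM (levelIncl h k f) = levelIncl h k (CuspForm.heckeTLin k hℓ hℓM0 f) :=
  DFunLike.coe_injective rfl

theorem heckeULin_levelIncl {M0 M : ℕ} [NeZero M0] [NeZero M] (h : M0 ∣ M) (k : ℤ) {q : ℕ}
    (hqM : q ∣ M) (hqM0 : q ∣ M0) (f : CuspForm (Gamma0 M0) k) :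
    CuspForm.heckeULin k hqM (levelIncl h k f) = levelIncl h k (CuspForm.heckeULin k hqM0 f) :=
  DFunLike.coe_injective rfl

open P2MW.S_ModularForm_heckeU_slash_eq_self_of_mem_Gamma0.ModularForm.HeckeSlashInvariance in
/-- `U_p` lowers the level from `N` to `N0` when `p ∣ N0` and `N ∣ p * N0`. -/
theorem heckeU_slash_mapGL_lower {p N N0 : ℕ} [NeZero p] (k : ℤ) (hpN0 : p ∣ N0)
    (hN : N ∣ p * N0) (f : ℍ → ℂ)
    (hf : ∀ γ ∈ (Gamma0 N : Subgroup (GL (Fin 2) ℝ)), f ∣[k] γ = f)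
    (g : SL(2, ℤ)) (hg : g ∈ Gamma0 N0) :
    ModularForm.heckeU k p f ∣[k] (mapGL ℝ g) = ModularForm.heckeU k p f := by
  have hcN : (N0 : ℤ) ∣ g 1 0 :=
    (ZMod.intCast_zmod_eq_zero_iff_dvd _ _).mp (Gamma0_mem.mp hg)
  have hc : (p : ℤ) ∣ g 1 0 := (Int.natCast_dvd_natCast.mpr hpN0).trans hcN
  rw [heckeU_eq_sum_zmod k f, SlashAction.sum_slash]
  calc ∑ x : ZMod p, (f ∣[k] ModularForm.heckeMatrix p x.val) ∣[k] mapGL ℝ g
      = ∑ x : ZMod p, f ∣[k] ModularForm.heckeMatrix p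
          (affinePerm g ((ZMod.intCast_zmod_eq_zero_iff_dvd _ _).mpr hc) x).val := by
        refine Finset.sum_congr rfl fun x _ ↦ ?_
        obtain ⟨g', hg', hmul⟩ := heckeMatrix_mul_of_dvd g hc x
        have hg'N : g' ∈ Gamma0 N := by
          rw [Gamma0_mem, hg', ZMod.intCast_zmod_eq_zero_iff_dvd]
          refine (Int.natCast_dvd_natCast.mpr hN).trans ?_
          push_cast
          exact mul_dvd_mul_left _ hcN
        rw [← SlashAction.slash_mul, hmul, SlashAction.slash_mul,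
          hf _ (Subgroup.mem_map_of_mem (mapGL ℝ) hg'N)]
    _ = ∑ x : ZMod p, f ∣[k] ModularForm.heckeMatrix p x.val :=
        Equiv.sum_comp (affinePerm g _) (fun x ↦ f ∣[k] ModularForm.heckeMatrix p x.val)

/-- `U_p : S_k(Γ₀(N)) → S_k(Γ₀(N0))` for `p ∣ N0`, `N ∣ p * N0`, `N0 ∣ N`. -/
noncomputable def heckeULower {p N N0 : ℕ} [NeZero p] [NeZero N] [NeZero N0] (k : ℤ) (hpN0 : p ∣ N0)
    (hN : N ∣ p * N0) (f : CuspForm (Gamma0 N) k) : CuspForm (Gamma0 N0) k where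
  toFun := ModularForm.heckeU k p ⇑f
  slash_action_eq' := by
    rintro _ ⟨g, hg, rfl⟩
    exact heckeU_slash_mapGL_lower k hpN0 hN f
      (fun γ hγ => SlashInvariantFormClass.slash_action_eq f γ hγ) g hg
  holo' := ModularForm.mdifferentiable_heckeU (CuspFormClass.holo f) k p
  zero_at_cusps' := fun hc => by
    refine CuspFormClass.isZeroAt_heckeU f p ?_
    rw [Subgroup.IsArithmetic.isCusp_iff_isCusp_SL2Z] at hc ⊢
    exact hc

@[simp] theorem coe_heckeULower {p N N0 : ℕ} [NeZero p] [NeZero N] [NeZero N0] (k : ℤ)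
    (hpN0 : p ∣ N0) (hN : N ∣ p * N0) (f : CuspForm (Gamma0 N) k) :
    ⇑(heckeULower k hpN0 hN f) = ModularForm.heckeU k p ⇑f := rfl

/-- `U_p f` is old (comes from level `N0`) when `p ∣ N0`, `N ∣ p * N0`. -/
theorem heckeULin_eq_levelIncl {p N N0 : ℕ} [NeZero p] [NeZero N] [NeZero N0] (k : ℤ)
    (hpN0 : p ∣ N0) (hN : N ∣ p * N0) (hN0 : N0 ∣ N) (hpN : p ∣ N) (f : CuspForm (Gamma0 N) k) :
    CuspForm.heckeULin k hpN f = levelIncl hN0 k (heckeULower k hpN0 hN f) :=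
  DFunLike.coe_injective rfl

end Fermat.Agent.SMO
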