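/-
Package [SMO] (helper99): strong multiplicity one in operator form.

For every finite set `S` of primes and every prime `ℓ₀ ∤ N`, a nonzero integer multiple of
`T_{ℓ₀}` lies in the Hecke algebra away from `S`.

Proof: Eichler-Shimura module at an auxiliary prime `p ≠ ℓ₀`, Frobenius density, Lucas sequences,
quasi-faithfulness (helper23's S31 toolbox) and Krull's intersection theorem.
-/
import Mathlib
import Fermat.Agent.FD.Main
import Fermat.Agent.ES.RepInterface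
import Fermat.Agent.ES.RepGalois
import Fermat.Agent.ES.S31.Faithful
import Fermat.Agent.ES.S31.Sides

set_option autoImplicit false

namespace Fermat.Agent.SMO

open Fermat.Agent.ES.Rep Fermat.Agent.ES.RepGalois Fermat.Agent.ES.S31 CuspForm

/-- There is a valuation subring of `ℚ̄` over every prime, with a Frobenius lift. -/
theorem exists_frobenius {ℓ : ℕ} (hℓ : ℓ.Prime) :
    ∃ (A : ValuationSubring (AlgebraicClosure ℚ)) (σ : GQ),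
      A.LiesOverPrime ℓ ∧ A.IsFrobeniusAt σ ℓ := by
  let f : ℤ →+* AlgebraicClosure ℚ := Int.castRingHom _
  have hf : Function.Injective f := Int.cast_injective
  let I : Ideal f.range := Ideal.span {f.rangeRestrict (ℓ : ℤ)}
  have hI : I ≠ ⊤ := by
    intro h
    have h1 : (1 : f.range) ∈ I := by rw [h]; trivial
    obtain ⟨a, ha⟩ := Ideal.mem_span_singleton'.mp h1
    obtain ⟨b, hb⟩ := f.rangeRestrict_surjective a
    have h2 : f (b * ℓ) = f 1 := by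
      rw [map_one]
      have := congrArg Subtype.val ha
      rw [← hb] at this
      simpa using this
    have h3 : b * (ℓ : ℤ) = 1 := hf h2
    have h4 : (ℓ : ℤ) ∣ 1 := ⟨b, by rw [← h3, mul_comm]⟩
    have h5 : ℓ ∣ 1 := by exact_mod_cast h4
    exact hℓ.one_lt.ne' (Nat.dvd_one.mp h5)
  obtain ⟨V, -, hV⟩ := Ideal.image_subset_nonunits_valuationSubring I hI
  have hlV : (ℓ : AlgebraicClosure ℚ) ∈ V.nonunits := by
    have := hV ⟨f.rangeRestrict (ℓ : ℤ), Ideal.subset_span rfl, rfl⟩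
    simpa [f] using this
  obtain ⟨σ, hσ, -⟩ := FD.D_exists_frobenius_at V hℓ hlV
  exact ⟨V, σ, hlV, hσ⟩

/-- Lucas sequences stay in a subring. -/
theorem lucas_mem {X : Type*} [CommRing X] (K : Subring X) {s e : X} (hs : s ∈ K) (he : e ∈ K)
    (k : ℕ) : lucas s e k ∈ K := by
  induction k using Nat.twoStepInduction with
  | zero => rw [lucas_zero]; exact ofNat_mem K 2
  | one => rw [lucas_one]; exact hs
  | more k h1 h2 =>
    rw [lucas_succ_succ]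
    exact K.sub_mem (K.mul_mem hs h2) (K.mul_mem he h1)

section Abstract

variable {p : ℕ} [Fact p.Prime]

/-- The abstract closure argument: an element of a faithful Hecke ring which is `p`-adically
approximated by elements of a subgroup `K` has a nonzero multiple in `K`. -/
theorem exists_zsmul_mem {X : Type*} [Ring X] [IsAddTorsionFree X]
    {H Λ : Type*} [AddCommGroup H] [Module.Free ℤ H] [Module.Finite ℤ H]
    [AddCommGroup Λ] [Module ℤ_[p] Λ] {ι : H →ₗ[ℤ] Λ} (hι : IsBaseChange ℤ_[p] ι)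
    (Θ : X →+* Module.End ℤ H) (hΘ : Function.Injective Θ)
    (ΘΛ : X →+* Module.End ℤ_[p] Λ) (hΘΛ : ∀ x h, ΘΛ x (ι h) = ι (Θ x h))
    (K : AddSubgroup X) (t : X) (happ : ∀ n : ℕ, ∃ y ∈ K, DivBy n (ΘΛ (t - y))) :
    ∃ m : ℤ, m ≠ 0 ∧ m • t ∈ K := by
  have hp : p.Prime := Fact.out
  obtain ⟨c, e, he, hfaith⟩ := exists_quasi_faithful hι Θ hΘ ΘΛ hΘΛ
  have hfin : Module.Finite ℤ X :=
    Module.Finite.of_injective (Θ : X →+ Module.End ℤ H).toIntLinearMap hΘ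
  let K' : Submodule ℤ X := AddSubgroup.toIntSubmodule K
  have hK' : ∀ x, x ∈ K' ↔ x ∈ K := fun x => Iff.rfl
  have hstep : ∀ n : ℕ, ∃ x' : X, K'.mkQ (e • t) = ((p : ℤ) ^ n) • K'.mkQ x' := by
    intro n
    obtain ⟨y, hyK, hy⟩ := happ (n + c)
    obtain ⟨x', hx'⟩ := hfaith _ n hy
    refine ⟨x', ?_⟩
    rw [← map_smul, ← hx', smul_sub, map_sub, eq_comm, sub_eq_self, Submodule.mkQ_apply,
      Submodule.Quotient.mk_eq_zero]
    exact K'.smul_mem _ ((hK' y).mpr hyK)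
  have hmem : K'.mkQ (e • t) ∈
      (⨅ i : ℕ, (Ideal.span {(p : ℤ)}) ^ i • ⊤ : Submodule ℤ (X ⧸ K')) := by
    rw [Submodule.mem_iInf]
    intro i
    obtain ⟨x', hx'⟩ := hstep i
    rw [hx']
    exact Submodule.smul_mem_smul (Ideal.pow_mem_pow (Ideal.mem_span_singleton_self _) i)
      Submodule.mem_top
  obtain ⟨r, hr⟩ := (Ideal.mem_iInf_smul_pow_eq_bot_iff _ _).mp hmem
  obtain ⟨a, ha⟩ := Ideal.mem_span_singleton'.mp r.2
  have hr' : ((r : ℤ)) • K'.mkQ (e • t) = K'.mkQ (e • t) := hr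
  have h1 : K'.mkQ (((1 - (r : ℤ)) * e) • t) = 0 := by
    rw [mul_smul, map_smul, sub_smul, one_smul, hr', sub_self]
  rw [Submodule.mkQ_apply, Submodule.Quotient.mk_eq_zero] at h1
  refine ⟨(1 - (r : ℤ)) * e, mul_ne_zero ?_ ?_, (hK' _).mp h1⟩
  · intro h0
    have h2 : (p : ℤ) ∣ 1 := ⟨a, by rw [mul_comm, ha]; linarith⟩
    have h3 : p ∣ 1 := by exact_mod_cast h2
    exact hp.one_lt.ne' (Nat.dvd_one.mp h3)
  · rintro rfl
    exact he (dvd_zero _)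

end Abstract

variable {p : ℕ} [Fact p.Prime] {N : ℕ} [NeZero N]

/-- the tautological ring homomorphism. -/
noncomputable def valHom (S : Set ℕ) : heckeAlgebra N 2 S →+*
    Module.End ℂ (CuspForm (CongruenceSubgroup.Gamma0 N) 2) :=
  (heckeAlgebra N 2 S).val.toRingHom

theorem valHom_apply (S : Set ℕ) (x : heckeAlgebra N 2 S) :
    valHom S x = (x : Module.End ℂ (CuspForm (CongruenceSubgroup.Gamma0 N) 2)) := rfl

/-- the elements of the Hecke algebra away from `S` lying in the Hecke algebra away from `S'`. -/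
noncomputable def subK (S S' : Set ℕ) : Subring (heckeAlgebra N 2 S) :=
  (heckeAlgebra N 2 S').toSubring.comap (valHom S)

theorem mem_subK {S S' : Set ℕ} (x : heckeAlgebra N 2 S) :
    x ∈ subK S S' ↔
      (x : Module.End ℂ (CuspForm (CongruenceSubgroup.Gamma0 N) 2)) ∈ heckeAlgebra N 2 S' :=
  Iff.rfl

/-- Every "trace" `ρ(g) + ε(g) ρ(g)⁻¹` is `p`-adically approximated by Hecke operators away from
any finite set of primes. -/
theorem approx {S₂ : Finset ℕ} (S₃ : Finset ℕ) (E : ESModule p N (↑S₂ : Set ℕ))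
    (hpS : p ∈ S₂) (hNS : ∀ q : ℕ, q.Prime → q ∣ N → q ∈ S₂) (g : GQ) (n : ℕ) :
    ∃ y ∈ subK (N := N) (↑S₂ : Set ℕ) (↑S₃ : Set ℕ), DivBy n (tauE E.ρ (eps p) g - E.ΘΛ y) := by
  classical
  obtain ⟨L₂, hL₂, h₂⟩ := E.continuous n
  obtain ⟨L₃, hL₃, h₃⟩ := eps_level' p n
  obtain ⟨L, hL, hLn, hLle⟩ := exists_normal_ge (L₂ ⊔ L₃) inferInstance
  have hle₂ : L₂ ≤ L := le_trans le_sup_left hLle
  have hle₃ : L₃ ≤ L := le_trans le_sup_right hLle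
  obtain ⟨ℓ, A, σ, k, -, hℓ, hℓS, hA, hσ, hgσ, -⟩ := FD.stmt_FD L g (S₂ ∪ S₃)
  have hℓS₂' : ℓ ∉ S₂ := fun h => hℓS (Finset.mem_union_left _ h)
  have hℓS₃' : ℓ ∉ S₃ := fun h => hℓS (Finset.mem_union_right _ h)
  have hℓS₃ : ℓ ∉ (↑S₃ : Set ℕ) := by simpa using hℓS₃'
  have hℓS₂ : ℓ ∉ (↑S₂ : Set ℕ) := by simpa using hℓS₂'
  have hℓN : ¬ ℓ ∣ N := fun h => hℓS₂' (hNS ℓ hℓ h)
  have hℓp : ℓ ≠ p := fun h => hℓS₂' (h ▸ hpS)
  refine ⟨lucas (heckeAlgebra.T hℓ hℓN hℓS₂) (ℓ : heckeAlgebra N 2 (↑S₂ : Set ℕ)) k,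
    lucas_mem _ ?_ (natCast_mem _ ℓ) k, ?_⟩
  · rw [mem_subK]
    exact heckeTLin_mem_heckeAlgebra hℓ hℓN hℓS₃
  rw [theta_lucas_eq_tauE E.ρ (eps p) E.ΘΛ σ _ ℓ (eps_frob p hℓ hℓp hA hσ)
    (fun x => E.comm σ x) (E.eichlerShimura ℓ hℓ hℓN hℓS₂ hℓp A hA σ hσ) k]
  refine tauE_congr E.ρ (eps p) (divBy_sub_of_inv_mul E.ρ ?_)
    (h₃ _ _ fun x hx => hgσ x (hle₃ hx))
  intro v
  have hfix : ∀ x ∈ L₂, ((σ ^ k)⁻¹ * g) x = x := by
    intro x hx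
    rw [AlgEquiv.mul_apply, hgσ x (hle₂ hx)]
    exact (σ ^ k).symm_apply_apply x
  obtain ⟨w, hw⟩ := h₂ _ hfix v
  exact ⟨w, by rw [LinearMap.sub_apply, Module.End.one_apply, hw]⟩

/-- The Hecke operator at a good prime is the "trace" of a Frobenius lift. -/
theorem theta_T_eq_tauE {S₂ : Finset ℕ} (E : ESModule p N (↑S₂ : Set ℕ)) {ℓ₀ : ℕ}
    (hℓ₀ : ℓ₀.Prime) (hℓ₀N : ¬ ℓ₀ ∣ N) (hℓ₀S : ℓ₀ ∉ (↑S₂ : Set ℕ)) (hℓ₀p : ℓ₀ ≠ p)
    {A : ValuationSubring (AlgebraicClosure ℚ)} {σ : GQ} (hA : A.LiesOverPrime ℓ₀)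
    (hσ : A.IsFrobeniusAt σ ℓ₀) :
    E.ΘΛ (heckeAlgebra.T hℓ₀ hℓ₀N hℓ₀S) = tauE E.ρ (eps p) σ := by
  have := theta_lucas_eq_tauE E.ρ (eps p) E.ΘΛ σ (heckeAlgebra.T hℓ₀ hℓ₀N hℓ₀S) ℓ₀
    (eps_frob p hℓ₀ hℓ₀p hA hσ) (fun x => E.comm σ x)
    (E.eichlerShimura ℓ₀ hℓ₀ hℓ₀N hℓ₀S hℓ₀p A hA σ hσ) 1
  rwa [lucas_one, pow_one] at this

/-- evaluation of an integer multiple. -/
theorem valHom_zsmul_apply (S : Set ℕ) (m : ℤ) (x : heckeAlgebra N 2 S)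
    (f : CuspForm (CongruenceSubgroup.Gamma0 N) 2) :
    valHom S (m • x) f = (m : ℂ) • valHom S x f := by
  rw [map_zsmul]
  have h1 : (m • valHom S x) f = m • (valHom S x f) :=
    map_zsmul (LinearMap.applyₗ (R := ℂ) f :
      Module.End ℂ (CuspForm (CongruenceSubgroup.Gamma0 N) 2) →ₗ[ℂ] _).toAddMonoidHom m _
  rw [h1, Int.cast_smul_eq_zsmul]

/-- **Strong multiplicity one, operator form**, relative version. -/
theorem smo_aux {S₂ : Finset ℕ} (S₃ : Finset ℕ) (E : ESModule p N (↑S₂ : Set ℕ))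
    (hpS : p ∈ S₂) (hNS : ∀ q : ℕ, q.Prime → q ∣ N → q ∈ S₂) {ℓ₀ : ℕ}
    (hℓ₀ : ℓ₀.Prime) (hℓ₀N : ¬ ℓ₀ ∣ N) (hℓ₀S : ℓ₀ ∉ (↑S₂ : Set ℕ)) :
    ∃ (m : ℤ) (x : heckeAlgebra N 2 (↑S₃ : Set ℕ)), m ≠ 0 ∧
      ∀ f : CuspForm (CongruenceSubgroup.Gamma0 N) 2,
        (x : Module.End ℂ (CuspForm (CongruenceSubgroup.Gamma0 N) 2)) f
          = (m : ℂ) • heckeTLin 2 hℓ₀ hℓ₀N f := by
  have hℓ₀p : ℓ₀ ≠ p := fun h => hℓ₀S (by simpa [h] using hpS)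
  obtain ⟨A, σ, hA, hσ⟩ := exists_frobenius hℓ₀
  have hT := theta_T_eq_tauE E hℓ₀ hℓ₀N hℓ₀S hℓ₀p hA hσ
  obtain ⟨m, hm, hmem⟩ := exists_zsmul_mem E.isBaseChange E.Θ E.Θ_injective E.ΘΛ E.ΘΛ_ι
    (subK (N := N) (↑S₂ : Set ℕ) (↑S₃ : Set ℕ)).toAddSubgroup
    (heckeAlgebra.T hℓ₀ hℓ₀N hℓ₀S) (fun n => by
      obtain ⟨y, hy, hy'⟩ := approx S₃ E hpS hNS σ n
      refine ⟨y, hy, ?_⟩
      rw [map_sub, hT]
      exact hy')
  refine ⟨m, ⟨_, (mem_subK _).mp hmem⟩, hm, fun f => ?_⟩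
  exact valHom_zsmul_apply _ m (heckeAlgebra.T hℓ₀ hℓ₀N hℓ₀S) f

/-- **Strong multiplicity one, operator form.**  `S` is any finite set of primes; a nonzero
multiple of `T_{ℓ₀}` (`ℓ₀ ∤ N`) is a polynomial in the `T_ℓ`, `ℓ ∉ S`, `ℓ ∤ N`
(and the `U_q`, `q ∣ N`, `q ∉ S`, if there are any). -/
theorem smo (hES : Stmt_ES) (N : ℕ) [NeZero N] (S : Finset ℕ) {ℓ₀ : ℕ}
    (hℓ₀ : ℓ₀.Prime) (hℓ₀N : ¬ ℓ₀ ∣ N) :
    ∃ (m : ℤ) (x : heckeAlgebra N 2 (↑S : Set ℕ)), m ≠ 0 ∧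
      ∀ f : CuspForm (CongruenceSubgroup.Gamma0 N) 2,
        (x : Module.End ℂ (CuspForm (CongruenceSubgroup.Gamma0 N) 2)) f
          = (m : ℂ) • heckeTLin 2 hℓ₀ hℓ₀N f := by
  classical
  obtain ⟨p, hp, hpℓ⟩ : ∃ p : ℕ, p.Prime ∧ p ≠ ℓ₀ := by
    by_cases h : ℓ₀ = 2
    · exact ⟨3, Nat.prime_three, by omega⟩
    · exact ⟨2, Nat.prime_two, fun h' => h h'.symm⟩
  have : Fact p.Prime := ⟨hp⟩
  let S₂ : Finset ℕ := insert p N.primeFactors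
  have hpS : p ∈ S₂ := Finset.mem_insert_self _ _
  have hNS : ∀ q : ℕ, q.Prime → q ∣ N → q ∈ S₂ := fun q hq hqN =>
    Finset.mem_insert_of_mem (Nat.mem_primeFactors.mpr ⟨hq, hqN, NeZero.ne N⟩)
  have hℓ₀S : ℓ₀ ∉ (↑S₂ : Set ℕ) := by
    intro h
    rcases Finset.mem_insert.mp (Finset.mem_coe.mp h) with h | h
    · exact hpℓ h.symm
    · exact hℓ₀N (Nat.dvd_of_mem_primeFactors h)
  obtain ⟨E⟩ := hES p N S₂ hpS hNS
  exact smo_aux S E hpS hNS hℓ₀ hℓ₀N hℓ₀S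

end Fermat.Agent.SMO
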