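/-
Package [SMO] (helper99), part 2: an eigensystem which occurs at level `M0 ∣ M` away from a finite
set of primes occurs at level `M0` in the sense of the prelude (`GoodEigensystemOccursAt`).
-/
import Fermat.Agent.SMO.Operator
import Fermat.Agent.SMO.Level
import Fermat.Agent.S49.Formal
import Fermat.Agent.S49.Eigen
import Fermat.Agent.ES.EigenChar
import Fermat.Agent.QInt.Main
import Fermat.Prelude.Def_CuspForm_Newforms

set_option autoImplicit false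

namespace Fermat.Agent.SMO

open Fermat.Agent.ES.Rep CuspForm CongruenceSubgroup ModularFormClass Fermat.Agent.S49

/-- A common eigenvector of the full Hecke algebra is a multiple of a normalised eigenform. -/
theorem exists_normalized {N : ℕ} [NeZero N] (g : CuspForm (Gamma0 N) 2) (hg0 : g ≠ 0)
    (hχ : ∀ x : heckeAlgebra N 2 ∅, ∃ c : ℂ,
      (x : Module.End ℂ (CuspForm (Gamma0 N) 2)) g = c • g) :
    ∃ (g' : CuspForm (Gamma0 N) 2) (c : ℂ), g'.IsNormalizedEigenform ∧ g' = c • g := by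
  choose χ hχ using hχ
  let c : ℕ → ℂ := fun ℓ => if hℓ : ℓ.Prime then
    (if hℓN : ℓ ∣ N then (χ (heckeAlgebra.U hℓ hℓN (Set.notMem_empty ℓ)) : ℂ)
      else (χ (heckeAlgebra.T hℓ hℓN (Set.notMem_empty ℓ)) : ℂ)) else 0
  let e : ℕ → ℂ := fun ℓ => if ℓ ∣ N then 0 else (ℓ : ℂ)
  have hrel : ∀ ℓ : ℕ, ℓ.Prime → ∀ n : ℕ,
      qCoeff g (ℓ * n) + e ℓ * (if ℓ ∣ n then qCoeff g (n / ℓ) else 0) = c ℓ * qCoeff g n := by
    intro ℓ hℓ n
    by_cases hℓN : ℓ ∣ N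
    · have h1 : heckeULin 2 hℓN g = (χ (heckeAlgebra.U hℓ hℓN (Set.notMem_empty ℓ)) : ℂ) • g :=
        hχ (heckeAlgebra.U hℓ hℓN (Set.notMem_empty ℓ))
      have h2 := congrArg (fun F => qCoeffLin N n F) h1
      simp only [map_smul, qCoeffLin_apply, qCoeff_heckeULin hℓ, smul_eq_mul] at h2
      simp only [e, c, dif_pos hℓ, dif_pos hℓN, if_pos hℓN, zero_mul, add_zero]
      exact h2
    · have h1 : heckeTLin 2 hℓ hℓN g = (χ (heckeAlgebra.T hℓ hℓN (Set.notMem_empty ℓ)) : ℂ) • g :=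
        hχ (heckeAlgebra.T hℓ hℓN (Set.notMem_empty ℓ))
      have h2 := congrArg (fun F => qCoeffLin N n F) h1
      simp only [map_smul, qCoeffLin_apply, qCoeff_heckeTLin, smul_eq_mul] at h2
      simp only [e, c, dif_pos hℓ, dif_neg hℓN, if_neg hℓN]
      exact h2
  have hb1 : qCoeff g 1 ≠ 0 := by
    intro h1
    apply hg0
    apply eq_zero_of_qCoeff
    intro n
    by_cases hn : n = 0
    · rw [hn]; exact qCoeff_zero_eq g
    · exact eq_zero_of_isEigen_of_one_eq_zero (a := fun n => qCoeff g n) h1 hrel n hn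
  obtain ⟨g', hg'def⟩ : ∃ g' : CuspForm (Gamma0 N) 2, g' = (qCoeff g 1)⁻¹ • g := ⟨_, rfl⟩
  have hg' : ∀ n, qCoeff g' n = (qCoeff g 1)⁻¹ * qCoeff g n := fun n => by
    rw [hg'def, ← qCoeffLin_apply n, map_smul, qCoeffLin_apply, smul_eq_mul]
  have hg'1 : qCoeff g' 1 = 1 := by rw [hg', inv_mul_cancel₀ hb1]
  have hrel' : ∀ ℓ : ℕ, ℓ.Prime → ∀ n : ℕ,
      qCoeff g' (ℓ * n) + e ℓ * (if ℓ ∣ n then qCoeff g' (n / ℓ) else 0) = c ℓ * qCoeff g' n := by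
    intro ℓ hℓ n
    have := hrel ℓ hℓ n
    simp only [hg']
    split_ifs at this ⊢
    · linear_combination (qCoeff g 1)⁻¹ * this
    · linear_combination (qCoeff g 1)⁻¹ * this
  have hc : ∀ ℓ : ℕ, ℓ.Prime → c ℓ = qCoeff g' ℓ := by
    intro ℓ hℓ
    have := hrel' ℓ hℓ 1
    rw [if_neg (fun hd => hℓ.one_lt.ne' (Nat.dvd_one.mp hd)), mul_zero, add_zero, mul_one, hg'1,
      mul_one] at this
    exact this.symm
  have hsys : FormalHecke.IsEigensystem e (fun n => qCoeff g' n) :=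
    ⟨hg'1, fun ℓ hℓ n => by rw [hrel' ℓ hℓ n, hc ℓ hℓ]⟩
  obtain ⟨r1, r2, r3⟩ := isRecursive_of_isEigensystem hsys
  refine ⟨g', (qCoeff g 1)⁻¹, ⟨r1, r2, ?_, ?_⟩, hg'def⟩
  · intro p r hp hpN
    have := r3 p r hp
    simp only [e, if_neg hpN] at this
    exact this
  · intro p r hp hpN
    have := r3 p r hp
    simp only [e, if_pos hpN, zero_mul, sub_zero] at this
    exact this

/-- Every nonzero subspace stable under the full Hecke algebra contains a normalised eigenform. -/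
theorem exists_eigenform_mem {N : ℕ} [NeZero N] (E : Submodule ℂ (CuspForm (Gamma0 N) 2))
    (hE : E ≠ ⊥)
    (hinv : ∀ x : heckeAlgebra N 2 ∅, ∀ v ∈ E,
      (x : Module.End ℂ (CuspForm (Gamma0 N) 2)) v ∈ E) :
    ∃ h ∈ E, h.IsNormalizedEigenform := by
  have := Fermat.Agent.QInt.finiteDimensional_cuspForm N 2
  obtain ⟨g, hgE, hg0, hg⟩ := exists_common_eigenvector (valHom (N := N) ∅) _ E le_rfl hE hinv
  obtain ⟨g', c, hg', rfl⟩ := exists_normalized g hg0 hg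
  exact ⟨_, E.smul_mem c hgE, hg'⟩

/-- The space of forms which are eigenvectors of `T_ℓ` with eigenvalue `a ℓ`, for all primes
`ℓ ∤ N` satisfying `P`. -/
def awaySpace (N : ℕ) (P : ℕ → Prop) (a : ℕ → ℂ) : Submodule ℂ (CuspForm (Gamma0 N) 2) where
  carrier := {f | ∀ (ℓ : ℕ) (hℓ : ℓ.Prime) (hℓN : ¬ ℓ ∣ N), P ℓ → heckeTLin 2 hℓ hℓN f = a ℓ • f}
  add_mem' := by
    intro f g hf hg ℓ hℓ hℓN hP
    rw [map_add, hf ℓ hℓ hℓN hP, hg ℓ hℓ hℓN hP, smul_add]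
  zero_mem' := by
    intro ℓ hℓ hℓN _
    rw [map_zero, smul_zero]
  smul_mem' := by
    intro c f hf ℓ hℓ hℓN hP
    rw [map_smul, hf ℓ hℓ hℓN hP, smul_comm]

theorem mem_awaySpace {N : ℕ} {P : ℕ → Prop} {a : ℕ → ℂ} {f : CuspForm (Gamma0 N) 2} :
    f ∈ awaySpace N P a ↔
      ∀ (ℓ : ℕ) (hℓ : ℓ.Prime) (hℓN : ¬ ℓ ∣ N), P ℓ → heckeTLin 2 hℓ hℓN f = a ℓ • f := Iff.rfl

theorem awaySpace_invariant {N : ℕ} [NeZero N] (P : ℕ → Prop) (a : ℕ → ℂ)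
    (x : heckeAlgebra N 2 ∅) (v : CuspForm (Gamma0 N) 2) (hv : v ∈ awaySpace N P a) :
    (x : Module.End ℂ (CuspForm (Gamma0 N) 2)) v ∈ awaySpace N P a := by
  intro ℓ hℓ hℓN hP
  have h1 : (x : Module.End ℂ (CuspForm (Gamma0 N) 2)) * heckeTLin 2 hℓ hℓN
      = heckeTLin 2 hℓ hℓN * (x : Module.End ℂ (CuspForm (Gamma0 N) 2)) :=
    congrArg Subtype.val (mul_comm x (heckeAlgebra.T hℓ hℓN (Set.notMem_empty ℓ)))
  have h2 := LinearMap.congr_fun h1 v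
  rw [Module.End.mul_apply, Module.End.mul_apply] at h2
  rw [← h2, hv ℓ hℓ hℓN hP, map_smul]

/-- Two simultaneous eigenvectors of the `T_ℓ` with the same eigenvalues are eigenvectors of
every element of the anemic Hecke algebra, with the same eigenvalue. -/
theorem same_scalar {M : ℕ} [NeZero M] (S : Set ℕ) (hS : ∀ q : ℕ, q.Prime → q ∣ M → q ∈ S)
    (g h : CuspForm (Gamma0 M) 2) (a : ℕ → ℂ)
    (hg : ∀ (ℓ : ℕ) (hℓ : ℓ.Prime) (hℓM : ¬ ℓ ∣ M), ℓ ∉ S → heckeTLin 2 hℓ hℓM g = a ℓ • g)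
    (hh : ∀ (ℓ : ℕ) (hℓ : ℓ.Prime) (hℓM : ¬ ℓ ∣ M), ℓ ∉ S → heckeTLin 2 hℓ hℓM h = a ℓ • h)
    {x : Module.End ℂ (CuspForm (Gamma0 M) 2)} (hx : x ∈ heckeAlgebra M 2 S) :
    ∃ c : ℂ, x g = c • g ∧ x h = c • h := by
  induction hx using Algebra.adjoin_induction with
  | mem x hx =>
    rcases hx with ⟨ℓ, hℓ, hℓM, hℓS, rfl⟩ | ⟨q, hqM, hq, hqS, rfl⟩
    · exact ⟨a ℓ, hg ℓ hℓ hℓM hℓS, hh ℓ hℓ hℓM hℓS⟩
    · exact absurd (hS q hq hqM) hqS
  | algebraMap r =>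
    refine ⟨(r : ℂ), ?_, ?_⟩ <;>
    rw [Algebra.algebraMap_eq_smul_one, LinearMap.smul_apply, Module.End.one_apply,
      Int.cast_smul_eq_zsmul]
  | add x y _ _ hx hy =>
    obtain ⟨c, hc1, hc2⟩ := hx
    obtain ⟨d, hd1, hd2⟩ := hy
    exact ⟨c + d, by rw [LinearMap.add_apply, hc1, hd1, add_smul],
      by rw [LinearMap.add_apply, hc2, hd2, add_smul]⟩
  | mul x y _ _ hx hy =>
    obtain ⟨c, hc1, hc2⟩ := hx
    obtain ⟨d, hd1, hd2⟩ := hy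
    exact ⟨d * c, by rw [Module.End.mul_apply, hd1, map_smul, hc1, smul_smul],
      by rw [Module.End.mul_apply, hd2, map_smul, hc2, smul_smul]⟩

/-- **Strong multiplicity one.**  If a nonzero form of level `M0 ∣ M` is an eigenvector of `T_ℓ`
with eigenvalue `a_ℓ(g)` for all primes `ℓ ∤ M` outside a finite set `S`, then the good
eigensystem of `g` occurs at level `M0` (equality of `a_ℓ` for ALL `ℓ ∤ M`). -/
theorem occurs_of_away (hES : Stmt_ES) {M M0 : ℕ} [NeZero M] (hM0 : M0 ∣ M) (S : Finset ℕ)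
    {g : CuspForm (Gamma0 M) 2} (hg : g.IsNormalizedEigenform)
    (f : CuspForm (Gamma0 M0) 2) (hf : f ≠ 0)
    (hfT : ∀ (ℓ : ℕ) (hℓ : ℓ.Prime) (hℓM0 : ¬ ℓ ∣ M0), ¬ ℓ ∣ M → ℓ ∉ S →
      heckeTLin 2 hℓ hℓM0 f = qCoeff g ℓ • f) :
    g.GoodEigensystemOccursAt M0 := by
  classical
  have : NeZero M0 := ⟨fun h => NeZero.ne M (by rw [h] at hM0; exact Nat.eq_zero_of_zero_dvd hM0)⟩
  let P : ℕ → Prop := fun ℓ => ¬ ℓ ∣ M ∧ ℓ ∉ S
  let a : ℕ → ℂ := fun ℓ => qCoeff g ℓ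
  have hE : awaySpace M0 P a ≠ ⊥ := by
    intro h
    have h1 : f ∈ awaySpace M0 P a := fun ℓ hℓ hℓM0 hP => hfT ℓ hℓ hℓM0 hP.1 hP.2
    rw [h] at h1
    exact hf ((Submodule.mem_bot ℂ).mp h1)
  obtain ⟨h, hhE, hh⟩ := exists_eigenform_mem _ hE (awaySpace_invariant P a)
  refine ⟨h, hh, fun ℓ₀ hℓ₀ hℓ₀M => ?_⟩
  have hℓ₀M0 : ¬ ℓ₀ ∣ M0 := fun hd => hℓ₀M (hd.trans hM0)
  let S' : Finset ℕ := S ∪ M.primeFactors
  obtain ⟨m, x, hm, hx⟩ := smo hES M S' hℓ₀ hℓ₀M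
  have hS' : ∀ q : ℕ, q.Prime → q ∣ M → q ∈ (↑S' : Set ℕ) := fun q hq hqM =>
    Finset.mem_coe.mpr (Finset.mem_union_right _
      (Nat.mem_primeFactors.mpr ⟨hq, hqM, NeZero.ne M⟩))
  obtain ⟨c, hc1, hc2⟩ := same_scalar (↑S' : Set ℕ) hS' g (levelIncl hM0 2 h) a
    (fun ℓ hℓ hℓM _ => Fermat.Agent.ES.EigenChar.heckeT_eigen hg hℓ hℓM)
    (fun ℓ hℓ hℓM hℓS => by
      have hℓM0 : ¬ ℓ ∣ M0 := fun hd => hℓM (hd.trans hM0)
      have hℓS' : ℓ ∉ S := fun hs => hℓS (Finset.mem_coe.mpr (Finset.mem_union_left _ hs))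
      rw [heckeTLin_levelIncl hM0 2 hℓ hℓM hℓM0, hhE ℓ hℓ hℓM0 ⟨hℓM, hℓS'⟩, map_smul]) x.2
  have hg0 : g ≠ 0 := hg.ne_zero
  have hh0 : levelIncl hM0 2 h ≠ 0 := by
    intro h0
    exact hh.ne_zero (levelIncl_injective hM0 2 (by rw [h0, map_zero]))
  have e1 : c = (m : ℂ) * qCoeff g ℓ₀ := by
    have := hx g
    rw [hc1, Fermat.Agent.ES.EigenChar.heckeT_eigen hg hℓ₀ hℓ₀M, smul_smul] at this
    exact smul_left_injective ℂ hg0 this
  have e2 : c = (m : ℂ) * qCoeff h ℓ₀ := by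
    have := hx (levelIncl hM0 2 h)
    rw [hc2, heckeTLin_levelIncl hM0 2 hℓ₀ hℓ₀M hℓ₀M0,
      Fermat.Agent.ES.EigenChar.heckeT_eigen hh hℓ₀ hℓ₀M0, map_smul, smul_smul] at this
    exact smul_left_injective ℂ hh0 this
  have hm' : (m : ℂ) ≠ 0 := by exact_mod_cast hm
  exact mul_left_cancel₀ hm' (e2.symm.trans e1)

end Fermat.Agent.SMO
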