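/-
Package [SMO] (helper99), part 3: the annihilator of the old forms.

For a newform `g` of level `M`, a proper divisor `M0` of `M` and a finite set `S` of primes
containing the primes dividing `M`, there is `t0` in the Hecke algebra away from `S` which kills
`S_2(Γ₀(M0))` and with `chig t0 ≠ 0`.
-/
import Fermat.Agent.SMO.Occurs

set_option autoImplicit false

namespace Fermat.Agent.SMO

open Fermat.Agent.ES.Rep CuspForm CongruenceSubgroup ModularFormClass Fermat.Agent.S49 Polynomial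

/-- For characters of a ring which is integral over `ℤ`, with values in `ℂ`: an inclusion of
kernels is an equality. -/
theorem ker_le_of_ker_le {R : Type*} [CommRing R] (χ ψ : R →+* ℂ)
    (hint : ∀ x : R, ∃ P : ℤ[X], P.Monic ∧ eval₂ (Int.castRingHom R) x P = 0)
    (h : RingHom.ker χ ≤ RingHom.ker ψ) : RingHom.ker ψ ≤ RingHom.ker χ := by
  intro x hx
  rw [RingHom.mem_ker] at hx ⊢
  have key : ∀ (θ : R →+* ℂ) (Q : ℤ[X]),
      θ (eval₂ (Int.castRingHom R) x Q) = eval₂ (Int.castRingHom ℂ) (θ x) Q := by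
    intro θ Q
    rw [hom_eval₂]
    congr 1
    exact RingHom.ext_int _ _
  have hy : IsIntegral ℤ (χ x) := by
    obtain ⟨P, hP, hP0⟩ := hint x
    refine ⟨P, hP, ?_⟩
    have := key χ P
    rw [hP0, map_zero] at this
    rw [algebraMap_int_eq]
    exact this.symm
  have h1 : eval₂ (Int.castRingHom R) x (minpoly ℤ (χ x)) ∈ RingHom.ker χ := by
    rw [RingHom.mem_ker, key]
    exact minpoly.aeval ℤ (χ x)
  have h2 := h h1
  rw [RingHom.mem_ker, key, hx, eval₂_at_zero] at h2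
  have h3 : (minpoly ℤ (χ x)).coeff 0 = 0 := by simpa using h2
  have h4 : (X : ℤ[X]) ∣ minpoly ℤ (χ x) := X_dvd_iff.mpr h3
  obtain ⟨Q, hQ⟩ := (irreducible_X).dvd_symm (minpoly.irreducible hy) h4
  have h5 := congrArg (aeval (χ x)) hQ
  rw [map_mul, minpoly.aeval, zero_mul, aeval_X] at h5
  exact h5

variable (M M0 : ℕ) [NeZero M] [NeZero M0] (S : Set ℕ)

/-- The subring of `𝕋_M × 𝕋_{M0}` generated by the pairs `(T_ℓ, T_ℓ)`, `ℓ ∤ M`, `ℓ ∉ S`. -/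
def pairRing : Subring (heckeAlgebra M 2 S × heckeAlgebra M0 2 S) :=
  Subring.closure {p | ∃ (ℓ : ℕ) (hℓ : ℓ.Prime) (hℓM : ¬ ℓ ∣ M) (hℓM0 : ¬ ℓ ∣ M0) (hℓS : ℓ ∉ S),
    p = (heckeAlgebra.T hℓ hℓM hℓS, heckeAlgebra.T hℓ hℓM0 hℓS)}

variable {M M0 S}

theorem T_mem_pairRing {ℓ : ℕ} (hℓ : ℓ.Prime) (hℓM : ¬ ℓ ∣ M) (hℓM0 : ¬ ℓ ∣ M0) (hℓS : ℓ ∉ S) :
    ((heckeAlgebra.T hℓ hℓM hℓS, heckeAlgebra.T hℓ hℓM0 hℓS) :
      heckeAlgebra M 2 S × heckeAlgebra M0 2 S) ∈ pairRing M M0 S :=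
  Subring.subset_closure ⟨ℓ, hℓ, hℓM, hℓM0, hℓS, rfl⟩

/-- **Induction principle for `pairRing`**: two ring homomorphisms into endomorphism rings, and an
additive map intertwining the images of the `T_ℓ`, intertwine every pair of `pairRing`. -/
theorem pairRing_intertwine {A A0 X Y : Type*} [Ring A] [Ring A0] [AddCommGroup X]
    [AddCommGroup Y] [Module A X] [Module A0 Y]
    (θ : heckeAlgebra M 2 S →+* Module.End A X) (θ0 : heckeAlgebra M0 2 S →+* Module.End A0 Y)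
    (B : Y →+ X)
    (hB : ∀ (ℓ : ℕ) (hℓ : ℓ.Prime) (hℓM : ¬ ℓ ∣ M) (hℓM0 : ¬ ℓ ∣ M0) (hℓS : ℓ ∉ S) (y : Y),
      θ (heckeAlgebra.T hℓ hℓM hℓS) (B y) = B (θ0 (heckeAlgebra.T hℓ hℓM0 hℓS) y))
    {p : heckeAlgebra M 2 S × heckeAlgebra M0 2 S} (hp : p ∈ pairRing M M0 S) (y : Y) :
    θ p.1 (B y) = B (θ0 p.2 y) := by
  induction hp using Subring.closure_induction generalizing y with
  | mem p hp =>
    obtain ⟨ℓ, hℓ, hℓM, hℓM0, hℓS, rfl⟩ := hp
    exact hB ℓ hℓ hℓM hℓM0 hℓS y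
  | zero => simp
  | one => simp
  | add p q _ _ hp hq =>
    simp only [Prod.fst_add, Prod.snd_add, map_add, LinearMap.add_apply, hp, hq]
  | neg p _ hp =>
    simp only [Prod.fst_neg, Prod.snd_neg, map_neg, LinearMap.neg_apply, hp]
  | mul p q _ _ hp hq =>
    simp only [Prod.fst_mul, Prod.snd_mul, map_mul, Module.End.mul_apply, hp, hq]

/-- The same in the other direction (e.g. for trace maps from level `M` to level `M0`). -/
theorem pairRing_intertwine' {A A0 X Y : Type*} [Ring A] [Ring A0] [AddCommGroup X]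
    [AddCommGroup Y] [Module A X] [Module A0 Y]
    (θ : heckeAlgebra M 2 S →+* Module.End A X) (θ0 : heckeAlgebra M0 2 S →+* Module.End A0 Y)
    (B : X →+ Y)
    (hB : ∀ (ℓ : ℕ) (hℓ : ℓ.Prime) (hℓM : ¬ ℓ ∣ M) (hℓM0 : ¬ ℓ ∣ M0) (hℓS : ℓ ∉ S) (x : X),
      B (θ (heckeAlgebra.T hℓ hℓM hℓS) x) = θ0 (heckeAlgebra.T hℓ hℓM0 hℓS) (B x))
    {p : heckeAlgebra M 2 S × heckeAlgebra M0 2 S} (hp : p ∈ pairRing M M0 S) (x : X) :
    B (θ p.1 x) = θ0 p.2 (B x) := by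
  induction hp using Subring.closure_induction generalizing x with
  | mem p hp =>
    obtain ⟨ℓ, hℓ, hℓM, hℓM0, hℓS, rfl⟩ := hp
    exact hB ℓ hℓ hℓM hℓM0 hℓS x
  | zero => simp
  | one => simp
  | add p q _ _ hp hq =>
    simp only [Prod.fst_add, Prod.snd_add, map_add, LinearMap.add_apply, hp, hq]
  | neg p _ hp =>
    simp only [Prod.fst_neg, Prod.snd_neg, map_neg, LinearMap.neg_apply, hp]
  | mul p q _ _ hp hq =>
    simp only [Prod.fst_mul, Prod.snd_mul, map_mul, Module.End.mul_apply, hp, hq]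

/-- Pairs of `pairRing` are intertwined by `levelIncl`. -/
theorem pairRing_levelIncl (hM0 : M0 ∣ M)
    {p : heckeAlgebra M 2 S × heckeAlgebra M0 2 S} (hp : p ∈ pairRing M M0 S)
    (f : CuspForm (Gamma0 M0) 2) :
    (p.1 : Module.End ℂ (CuspForm (Gamma0 M) 2)) (levelIncl hM0 2 f) =
      levelIncl hM0 2 ((p.2 : Module.End ℂ (CuspForm (Gamma0 M0) 2)) f) := by
  induction hp using Subring.closure_induction generalizing f with
  | mem p hp =>
    obtain ⟨ℓ, hℓ, hℓM, hℓM0, hℓS, rfl⟩ := hp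
    exact heckeTLin_levelIncl hM0 2 hℓ hℓM hℓM0 f
  | zero => exact (map_zero _).symm
  | one => rfl
  | add p q _ _ hp hq =>
    have := congrArg₂ (· + ·) (hp f) (hq f)
    rw [← map_add] at this
    exact this
  | neg p _ hp =>
    have := congrArg (- ·) (hp f)
    rw [← map_neg (levelIncl hM0 2)] at this
    exact this
  | mul p q _ _ hp hq =>
    have := hp ((q.2 : Module.End ℂ (CuspForm (Gamma0 M0) 2)) f)
    rw [← hq f] at this
    exact this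

/-- If `S` contains the primes dividing `M`, the first projection of `pairRing` is surjective. -/
theorem exists_mem_pairRing (hM0 : M0 ∣ M) (hS : ∀ q : ℕ, q.Prime → q ∣ M → q ∈ S)
    (x : heckeAlgebra M 2 S) : ∃ y : heckeAlgebra M0 2 S, (x, y) ∈ pairRing M M0 S := by
  obtain ⟨x, hx⟩ := x
  induction hx using Algebra.adjoin_induction with
  | mem x hx =>
    rcases hx with ⟨ℓ, hℓ, hℓM, hℓS, rfl⟩ | ⟨q, hqM, hq, hqS, rfl⟩
    · exact ⟨_, T_mem_pairRing hℓ hℓM (fun hd => hℓM (hd.trans hM0)) hℓS⟩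
    · exact absurd (hS q hq hqM) hqS
  | algebraMap r =>
    refine ⟨(r : heckeAlgebra M0 2 S), ?_⟩
    have h1 : ((r : heckeAlgebra M 2 S × heckeAlgebra M0 2 S)) ∈ pairRing M M0 S := intCast_mem _ r
    have h2 : ((r : heckeAlgebra M 2 S × heckeAlgebra M0 2 S)) =
        (⟨algebraMap ℤ _ r, Subalgebra.algebraMap_mem _ r⟩, (r : heckeAlgebra M0 2 S)) := by
      refine Prod.ext (Subtype.ext ?_) rfl
      simp
    rw [← h2]
    exact h1
  | add x y hx hy ihx ihy =>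
    obtain ⟨a, ha⟩ := ihx
    obtain ⟨b, hb⟩ := ihy
    exact ⟨a + b, (pairRing M M0 S).add_mem ha hb⟩
  | mul x y hx hy ihx ihy =>
    obtain ⟨a, ha⟩ := ihx
    obtain ⟨b, hb⟩ := ihy
    exact ⟨a * b, (pairRing M M0 S).mul_mem ha hb⟩

/-- Monic integral equations in the Hecke algebra. -/
theorem heckeAlgebra_integral (x : heckeAlgebra M 2 S) :
    ∃ P : ℤ[X], P.Monic ∧ eval₂ (Int.castRingHom (heckeAlgebra M 2 S)) x P = 0 := by
  have : Module.Finite ℤ (heckeAlgebra M 2 S) := Fermat.Agent.S22.result M 2 S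
  obtain ⟨P, hP, hP0⟩ : IsIntegral ℤ x := Algebra.IsIntegral.isIntegral x
  refine ⟨P, hP, ?_⟩
  rw [← hP0]
  congr 1

/-- If a character `ψ` of the anemic Hecke algebra of level `M` kills every element killing the
forms of level `M0`, then it is the system of eigenvalues of a nonzero form of level `M0`. -/
theorem exists_eigenvector_of_ann (hM0 : M0 ∣ M) (hS : ∀ q : ℕ, q.Prime → q ∣ M → q ∈ S)
    (ψ : heckeAlgebra M 2 S →+* ℂ)
    (hann : ∀ t : heckeAlgebra M 2 S, (t, 0) ∈ pairRing M M0 S → ψ t = 0) :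
    ∃ F : CuspForm (Gamma0 M0) 2, F ≠ 0 ∧
      ∀ (ℓ : ℕ) (hℓ : ℓ.Prime) (hℓM : ¬ ℓ ∣ M) (hℓM0 : ¬ ℓ ∣ M0) (hℓS : ℓ ∉ S),
        heckeTLin 2 hℓ hℓM0 F = ψ (heckeAlgebra.T hℓ hℓM hℓS) • F := by
  have := Fermat.Agent.QInt.finiteDimensional_cuspForm M 2
  have hprime : (RingHom.ker ψ).IsPrime := RingHom.ker_isPrime ψ
  obtain ⟨χ, f, hfE, hf0, hχ, hker⟩ := exists_eigen_character_aux (valHom (N := M) S)
    (RingHom.ker ψ) _ (LinearMap.range (levelIncl hM0 2)) le_rfl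
    (by
      rintro r _ ⟨f0, rfl⟩
      obtain ⟨y, hy⟩ := exists_mem_pairRing hM0 hS r
      exact ⟨_, (pairRing_levelIncl hM0 hy f0).symm⟩)
    (by
      intro r hr
      obtain ⟨y, hy⟩ := exists_mem_pairRing hM0 hS r
      have hy0 : y = 0 := by
        apply Subtype.ext
        apply LinearMap.ext
        intro f0
        apply levelIncl_injective hM0 2
        rw [← pairRing_levelIncl hM0 hy f0]
        rw [show ((0 : heckeAlgebra M0 2 S) : Module.End ℂ (CuspForm (Gamma0 M0) 2)) = 0 from rfl,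
          LinearMap.zero_apply, map_zero]
        exact hr _ ⟨f0, rfl⟩
      rw [hy0] at hy
      exact (RingHom.mem_ker).mpr (hann r hy))
  obtain ⟨f0, rfl⟩ := hfE
  have hker' : RingHom.ker ψ ≤ RingHom.ker χ := ker_le_of_ker_le χ ψ heckeAlgebra_integral hker
  -- the automorphism of `ℂ`
  have hfin : Module.Finite ℤ (heckeAlgebra M 2 S) := Fermat.Agent.S22.result M 2 S
  have hcount : Countable (heckeAlgebra M 2 S) := Finsupp.Countable.of_moduleFinite (R := ℤ)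
  have hcount' : Countable (heckeAlgebra M 2 S ⧸ RingHom.ker χ) :=
    Function.Surjective.countable Ideal.Quotient.mk_surjective
  have hprime' : (RingHom.ker χ).IsPrime := RingHom.ker_isPrime χ
  obtain ⟨σ, hσ⟩ := Fermat.Agent.QInt.exists_ringEquiv_of_injective
    (RingHom.kerLift χ)
    (Ideal.Quotient.lift (RingHom.ker χ) ψ (fun a ha => (RingHom.mem_ker).mp (hker ha)))
    (RingHom.kerLift_injective χ)
    (RingHom.lift_injective_of_ker_le_ideal _ _ hker')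
  have hσ' : ∀ r : heckeAlgebra M 2 S, σ (χ r) = ψ r := fun r => by
    have := hσ (Ideal.Quotient.mk _ r)
    rwa [RingHom.kerLift_mk, Ideal.Quotient.lift_mk] at this
  obtain ⟨F, hF⟩ := Fermat.Agent.QInt.exists_twist (σ : ℂ →+* ℂ) f0
  have hF' : ∀ n, qCoeff F n = σ (qCoeff f0 n) := hF
  refine ⟨F, ?_, ?_⟩
  · rintro rfl
    apply hf0
    have : f0 = 0 := by
      apply eq_zero_of_qCoeff
      intro n
      have h1 := hF' n
      rw [← qCoeffLin_apply, map_zero] at h1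
      exact (map_eq_zero σ).mp h1.symm
    rw [this, map_zero]
  · intro ℓ hℓ hℓM hℓM0 hℓS
    have h1 : heckeTLin 2 hℓ hℓM0 f0 = χ (heckeAlgebra.T hℓ hℓM hℓS) • f0 := by
      apply levelIncl_injective hM0 2
      rw [← heckeTLin_levelIncl hM0 2 hℓ hℓM hℓM0, map_smul]
      exact hχ (heckeAlgebra.T hℓ hℓM hℓS)
    rw [← sub_eq_zero]
    apply eq_zero_of_qCoeff
    intro n
    have h2 := congrArg (fun G => σ (qCoeffLin M0 n G)) h1
    simp only [map_smul, qCoeffLin_apply, qCoeff_heckeTLin, smul_eq_mul, map_mul, map_add,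
      map_natCast, hσ'] at h2
    rw [← qCoeffLin_apply, map_sub, map_smul, qCoeffLin_apply, qCoeffLin_apply, qCoeff_heckeTLin,
      smul_eq_mul, sub_eq_zero, hF' n, hF' (ℓ * n), ← h2]
    split_ifs
    · rw [hF']
    · rw [map_zero]

/-- **The annihilator of the old forms.**  `g` a newform of level `M`, `M0` a proper divisor of `M`,
`S ⊇ {q ∣ M}` finite: some `t0 ∈ 𝕋_M^{(S)}` with `chig t0 ≠ 0` is "the same word in the `T_ℓ`" as
`0 ∈ 𝕋_{M0}^{(S)}`. -/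
theorem exists_annihilator (hES : Stmt_ES) {M : ℕ} [NeZero M] {g : CuspForm (Gamma0 M) 2}
    (hg : g.IsNewform) (S : Finset ℕ) (hMS : ∀ q : ℕ, q.Prime → q ∣ M → q ∈ S)
    (chig : heckeAlgebra M 2 (↑S : Set ℕ) →+* ℂ)
    (hchig : ∀ (ℓ : ℕ) (hℓ : ℓ.Prime) (hℓM : ¬ ℓ ∣ M) (hℓS : ℓ ∉ (↑S : Set ℕ)),
      chig (heckeAlgebra.T hℓ hℓM hℓS) = qCoeff g ℓ)
    {M0 : ℕ} [NeZero M0] (hM0 : M0 ∣ M) (hne : M0 ≠ M) :
    ∃ t0 : heckeAlgebra M 2 (↑S : Set ℕ), chig t0 ≠ 0 ∧ (t0, 0) ∈ pairRing M M0 (↑S : Set ℕ) := by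
  by_contra hcon
  push Not at hcon
  obtain ⟨F, hF0, hF⟩ := exists_eigenvector_of_ann hM0
    (fun q hq hqM => Finset.mem_coe.mpr (hMS q hq hqM)) chig
    (fun t ht => by
      by_contra h
      exact hcon t h ht)
  refine hg.2 M0 hM0 hne (occurs_of_away hES hM0 S hg.1 F hF0 ?_)
  intro ℓ hℓ hℓM0 hℓM hℓS
  have hℓS' : ℓ ∉ (↑S : Set ℕ) := fun h => hℓS (Finset.mem_coe.mp h)
  rw [hF ℓ hℓ hℓM hℓM0 hℓS', hchig]

/-- The annihilator kills the forms of level `M0`, seen at level `M`. -/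
theorem exists_annihilator_levelIncl (hES : Stmt_ES) {M : ℕ} [NeZero M]
    {g : CuspForm (Gamma0 M) 2}
    (hg : g.IsNewform) (S : Finset ℕ) (hMS : ∀ q : ℕ, q.Prime → q ∣ M → q ∈ S)
    (chig : heckeAlgebra M 2 (↑S : Set ℕ) →+* ℂ)
    (hchig : ∀ (ℓ : ℕ) (hℓ : ℓ.Prime) (hℓM : ¬ ℓ ∣ M) (hℓS : ℓ ∉ (↑S : Set ℕ)),
      chig (heckeAlgebra.T hℓ hℓM hℓS) = qCoeff g ℓ)
    {M0 : ℕ} (hM0 : M0 ∣ M) (hne : M0 ≠ M) :
    ∃ t0 : heckeAlgebra M 2 (↑S : Set ℕ), chig t0 ≠ 0 ∧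
      ∀ f0 : CuspForm (Gamma0 M0) 2,
        (t0 : Module.End ℂ (CuspForm (Gamma0 M) 2)) (levelIncl hM0 2 f0) = 0 := by
  have : NeZero M0 := ⟨fun h => NeZero.ne M (by rw [h] at hM0; exact Nat.eq_zero_of_zero_dvd hM0)⟩
  obtain ⟨t0, h1, h2⟩ := exists_annihilator hES hg S hMS chig hchig hM0 hne
  refine ⟨t0, h1, fun f0 => ?_⟩
  have := pairRing_levelIncl hM0 h2 f0
  rw [this]
  exact map_zero _

/-- **`t0 * U_r = 0` for `r ^ 2 ∣ M`.** -/
theorem exists_annihilator_U (hES : Stmt_ES) {M : ℕ} [NeZero M]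
    {g : CuspForm (Gamma0 M) 2}
    (hg : g.IsNewform) (S : Finset ℕ) (hMS : ∀ q : ℕ, q.Prime → q ∣ M → q ∈ S)
    (chig : heckeAlgebra M 2 (↑S : Set ℕ) →+* ℂ)
    (hchig : ∀ (ℓ : ℕ) (hℓ : ℓ.Prime) (hℓM : ¬ ℓ ∣ M) (hℓS : ℓ ∉ (↑S : Set ℕ)),
      chig (heckeAlgebra.T hℓ hℓM hℓS) = qCoeff g ℓ)
    {r : ℕ} (hr : r.Prime) (hrM : r ∣ M) (hr2 : r ^ 2 ∣ M) :
    ∃ t0 : heckeAlgebra M 2 (↑S : Set ℕ), chig t0 ≠ 0 ∧
      (t0 : Module.End ℂ (CuspForm (Gamma0 M) 2)) * heckeULin 2 hrM = 0 := by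
  have hMpos : 0 < M := Nat.pos_of_ne_zero (NeZero.ne M)
  have hM0 : M / r ∣ M := Nat.div_dvd_of_dvd hrM
  have hne : M / r ≠ M := (Nat.div_lt_self hMpos hr.one_lt).ne
  have h0 : NeZero (M / r) := ⟨(Nat.div_pos (Nat.le_of_dvd hMpos hrM) hr.pos).ne'⟩
  have hr0 : NeZero r := ⟨hr.ne_zero⟩
  have h1 : r ∣ M / r := by
    obtain ⟨k, hk⟩ := hr2
    refine ⟨k, ?_⟩
    rw [hk, pow_two, mul_assoc, Nat.mul_div_cancel_left _ hr.pos]
  have h2 : M ∣ r * (M / r) := by rw [Nat.mul_div_cancel' hrM]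
  obtain ⟨t0, ht0, ht⟩ := exists_annihilator_levelIncl hES hg S hMS chig hchig hM0 hne
  refine ⟨t0, ht0, LinearMap.ext fun f => ?_⟩
  rw [Module.End.mul_apply, heckeULin_eq_levelIncl 2 h1 h2 hM0 hrM f, ht, LinearMap.zero_apply]

/-- The character `chig` gives the eigenvalues on `g`. -/
theorem apply_eq_chig_smul {M : ℕ} [NeZero M] {g : CuspForm (Gamma0 M) 2}
    (hg : g.IsNormalizedEigenform) (S : Set ℕ) (hMS : ∀ q : ℕ, q.Prime → q ∣ M → q ∈ S)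
    (chig : heckeAlgebra M 2 S →+* ℂ)
    (hchig : ∀ (ℓ : ℕ) (hℓ : ℓ.Prime) (hℓM : ¬ ℓ ∣ M) (hℓS : ℓ ∉ S),
      chig (heckeAlgebra.T hℓ hℓM hℓS) = qCoeff g ℓ)
    (x : heckeAlgebra M 2 S) :
    (x : Module.End ℂ (CuspForm (Gamma0 M) 2)) g = chig x • g := by
  obtain ⟨x, hx⟩ := x
  induction hx using Algebra.adjoin_induction with
  | mem x hx =>
    rcases hx with ⟨ℓ, hℓ, hℓM, hℓS, rfl⟩ | ⟨q, hqM, hq, hqS, rfl⟩
    · have := hchig ℓ hℓ hℓM hℓS
      rw [show chig ⟨heckeTLin 2 hℓ hℓM, _⟩ = qCoeff g ℓ from this]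
      exact Fermat.Agent.ES.EigenChar.heckeT_eigen hg hℓ hℓM
    · exact absurd (hMS q hq hqM) hqS
  | algebraMap r =>
    have h2 : (⟨algebraMap ℤ _ r, Subalgebra.algebraMap_mem _ r⟩ : heckeAlgebra M 2 S) =
        (r : heckeAlgebra M 2 S) := by
      refine Subtype.ext ?_
      simp
    rw [h2, map_intCast]
    show (algebraMap ℤ (Module.End ℂ (CuspForm (Gamma0 M) 2)) r) g = _
    rw [Algebra.algebraMap_eq_smul_one, LinearMap.smul_apply, Module.End.one_apply,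
      Int.cast_smul_eq_zsmul]
  | add x y hx hy ihx ihy =>
    have h2 : (⟨x + y, add_mem hx hy⟩ : heckeAlgebra M 2 S) = ⟨x, hx⟩ + ⟨y, hy⟩ := rfl
    rw [h2, map_add, add_smul, ← ihx, ← ihy]
    rfl
  | mul x y hx hy ihx ihy =>
    have h2 : (⟨x * y, mul_mem hx hy⟩ : heckeAlgebra M 2 S) = ⟨x, hx⟩ * ⟨y, hy⟩ := rfl
    rw [h2, map_mul]
    show x (y g) = _
    have h3 : y g = chig ⟨y, hy⟩ • g := ihy
    have h4 : x g = chig ⟨x, hx⟩ • g := ihx
    rw [h3, map_smul, h4, smul_smul, mul_comm]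

/-- By-product: `a_r(g) = 0` for a newform `g` of level `M` and `r ^ 2 ∣ M`. -/
theorem qCoeff_eq_zero_of_sq_dvd (hES : Stmt_ES) {M : ℕ} [NeZero M]
    {g : CuspForm (Gamma0 M) 2} (hg : g.IsNewform) {r : ℕ} (hr : r.Prime) (hr2 : r ^ 2 ∣ M) :
    qCoeff g r = 0 := by
  have hrM : r ∣ M := (dvd_pow_self r two_ne_zero).trans hr2
  have hMS : ∀ q : ℕ, q.Prime → q ∣ M → q ∈ M.primeFactors := fun q hq hqM =>
    Nat.mem_primeFactors.mpr ⟨hq, hqM, NeZero.ne M⟩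
  have hchig : ∀ (ℓ : ℕ) (hℓ : ℓ.Prime) (hℓM : ¬ ℓ ∣ M) (hℓS : ℓ ∉ (↑M.primeFactors : Set ℕ)),
      Fermat.Agent.ES.EigenChar.eigenCharC (↑M.primeFactors : Set ℕ) hg.1
        (heckeAlgebra.T hℓ hℓM hℓS) = qCoeff g ℓ := by
    intro ℓ hℓ hℓM hℓS
    show qCoeff ((heckeTLin 2 hℓ hℓM) g) 1 = qCoeff g ℓ
    rw [Fermat.Agent.ES.EigenChar.heckeT_eigen hg.1 hℓ hℓM, ← qCoeffLin_apply, map_smul,
      qCoeffLin_apply, hg.1.qCoeff_one, smul_eq_mul, mul_one]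
  obtain ⟨t0, h1, h2⟩ := exists_annihilator_U hES hg M.primeFactors hMS _ hchig hr hrM hr2
  have h3 := LinearMap.congr_fun h2 g
  rw [Module.End.mul_apply, Fermat.Agent.ES.EigenChar.heckeU_eigen hg.1 hr hrM, map_smul,
    apply_eq_chig_smul hg.1 _ (fun q hq hqM => Finset.mem_coe.mpr (hMS q hq hqM)) _ hchig t0,
    smul_smul, LinearMap.zero_apply] at h3
  rcases smul_eq_zero.mp h3 with h4 | h4
  · exact (mul_eq_zero.mp h4).resolve_right h1
  · exact absurd h4 hg.ne_zero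

end Fermat.Agent.SMO
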